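/-
S15, block ADM (helper46).  Abstract part 2: from Eichler-Shimura + Frobenius density to
"`(σ - 1)(σ - χ σ)` is nilpotent for EVERY `σ`".

`J` a `G_ℚ`-module, `T ℓ` endomorphisms commuting with Galois, Eichler-Shimura on `J[n]`
(`φ² - T_ℓ φ + ℓ = 0` for every Frobenius `φ` at `ℓ ∉ S`), `G ≤ J[n]` a finite Galois stable subgroup with
open stabilisers on which every `T_ℓ - (1 + ℓ)` is (pointwise) nilpotent.  Then for every `σ` and `k` with
`σ ζ = ζ ^ k` (`ζ` a primitive `n`-th root of unity) the operator `(σ - 1)^m (σ - k)^m` kills `G`.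

* `nil_of_frob`   : the ring form, in `AddMonoid.End J`;
* `iter_of_frob`  : the iterate form (`= Sel.NilCond ζ G`, see `Adm/Inst.lean`);
* `eisOp_of_frob` : the form `(σ² - (k + 1) σ + k)^[m] = 0` (shape of `HG.Hyp.eis`).
-/
import Mathlib
import Fermat.Agent.Lib.FrobDensity
import Fermat.Agent.Lib.InertiaField.Defs
import Fermat.Agent.S29.Cyclo

set_option autoImplicit false

namespace Fermat.Agent.S15.Adm

open Fermat.Agent.Lib.InertiaField Fermat.Agent.S05 Fermat.Agent.S29.Cyclo Polynomial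

/-! ### Frobenius on roots of unity of order prime to `ℓ` -/

section Roots

variable {L : Type*} [Field L]

theorem not_val_sub_one_lt_one (A : ValuationSubring L) {ℓ m : ℕ} (hℓ : ℓ.Prime)
    (hm : ¬ ℓ ∣ m) (hA : A.LiesOverPrime ℓ) {η : L} (hη : η ^ m = 1) (hη1 : η ≠ 1) :
    ¬ A.valuation (η - 1) < 1 := by
  intro hlt
  have hm0 : m ≠ 0 := by
    rintro rfl
    exact hm (dvd_zero ℓ)
  have hsum : ∑ i ∈ Finset.range m, η ^ i = 0 := by
    have h1 := geom_sum_mul η m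
    rw [hη, sub_self] at h1
    exact (mul_eq_zero.mp h1).resolve_right (sub_ne_zero.mpr hη1)
  have hv : A.valuation η = 1 := valuation_eq_one_of_pow_eq_one A hm0 hη
  have hterm : ∀ i : ℕ, A.valuation (η ^ i - 1) < 1 := by
    intro i
    induction i with
    | zero => simp
    | succ i ih =>
      have : η ^ (i + 1) - 1 = η * (η ^ i - 1) + (η - 1) := by ring
      rw [this]
      apply Valuation.map_add_lt _ _ hlt
      rw [map_mul, hv, one_mul]
      exact ih
  have hpsum : (m : L) = - ∑ i ∈ Finset.range m, (η ^ i - 1) := by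
    rw [Finset.sum_sub_distrib, hsum]
    simp
  have hlt' : A.valuation (m : L) < 1 := by
    rw [hpsum, Valuation.map_neg]
    exact Valuation.map_sum_lt _ one_ne_zero (fun i _ => hterm i)
  have hnd : ¬ (ℓ : ℤ) ∣ (m : ℤ) := fun h => hm (Int.natCast_dvd_natCast.mp h)
  have := valuation_intCast_eq_one A hℓ hA hnd
  rw [Int.cast_natCast] at this
  exact absurd this hlt'.ne

theorem eq_of_val_sub_lt_one (A : ValuationSubring L) {ℓ m : ℕ} (hℓ : ℓ.Prime)
    (hm : ¬ ℓ ∣ m) (hA : A.LiesOverPrime ℓ) {x y : L} (hx : x ^ m = 1)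
    (hy : y ^ m = 1) (h : A.valuation (x - y) < 1) : x = y := by
  have hm0 : m ≠ 0 := by
    rintro rfl
    exact hm (dvd_zero ℓ)
  by_contra hxy
  have hy0 : y ≠ 0 := by
    rintro rfl
    rw [zero_pow hm0] at hy
    exact zero_ne_one hy
  have h1 : (x / y) ^ m = 1 := by rw [div_pow, hx, hy, div_one]
  have h2 : x / y ≠ 1 := by
    intro h3
    exact hxy ((div_eq_one_iff_eq hy0).mp h3)
  apply not_val_sub_one_lt_one A hℓ hm hA h1 h2
  have h3 : x / y - 1 = (x - y) / y := by field_simp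
  rw [h3, map_div₀, valuation_eq_one_of_pow_eq_one A hm0 hy, div_one]
  exact h

end Roots

theorem frob_root {ℓ : ℕ} (hℓ : ℓ.Prime) (A : ValuationSubring Qb) (hA : A.LiesOverPrime ℓ)
    (φ : GQ) (hφ : A.IsFrobeniusAt φ ℓ) {m : ℕ} (hm : ¬ ℓ ∣ m) (ζ : Qb) (hζ : ζ ^ m = 1) :
    φ ζ = ζ ^ ℓ := by
  have hm0 : m ≠ 0 := by
    rintro rfl
    exact hm (dvd_zero ℓ)
  apply eq_of_val_sub_lt_one A hℓ hm hA
  · rw [← map_pow, hζ, map_one]
  · rw [← pow_mul, mul_comm, pow_mul, hζ, one_pow]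
  · exact frob_valuation_sub_lt_one A hφ (valuation_eq_one_of_pow_eq_one A hm0 hζ).le

theorem frob_pow_root {ℓ : ℕ} (φ : GQ) (ζ : Qb) (h : φ ζ = ζ ^ ℓ) (b : ℕ) :
    (φ ^ b) ζ = ζ ^ (ℓ ^ b) := by
  induction b with
  | zero => simp
  | succ b ih =>
    rw [pow_succ', AlgEquiv.mul_apply, ih, map_pow, h, ← pow_mul, pow_succ']

/-! ### Ring lemmas -/

/-- if `((A - 1)(A - a))^m = 0` then `(A^b - 1)^m (A^b - a^b)^m = 0` -/
theorem pow_nil {R : Type*} [Ring R] (A : R) (a b m : ℕ)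
    (h : ((A - 1) * (A - (a : R))) ^ m = 0) :
    (A ^ b - 1) ^ m * (A ^ b - ((a ^ b : ℕ) : R)) ^ m = 0 := by
  have key : ((X - 1) * (X - (a : ℤ[X]))) ^ m ∣
      (X ^ b - 1) ^ m * (X ^ b - ((a ^ b : ℕ) : ℤ[X])) ^ m := by
    rw [← mul_pow]
    apply pow_dvd_pow_of_dvd
    apply mul_dvd_mul
    · simpa using sub_dvd_pow_sub_pow (X : ℤ[X]) 1 b
    · simpa using sub_dvd_pow_sub_pow (X : ℤ[X]) (a : ℤ[X]) b
  obtain ⟨Q, hQ⟩ := key
  have h1 := congrArg (Polynomial.aeval A) hQ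
  simp only [map_mul, map_pow, map_sub, aeval_X, map_one, map_natCast] at h1
  rw [h1, h, zero_mul]

theorem nsmul_eq_of_modEq {M : Type*} [AddMonoid M] {n k k' : ℕ} (h : k ≡ k' [MOD n]) {x : M}
    (hx : n • x = 0) : k • x = k' • x := by
  have h1 : k ≡ k' [MOD addOrderOf x] := h.of_dvd (addOrderOf_dvd_of_nsmul_eq_zero hx)
  rw [← mod_addOrderOf_nsmul x k, ← mod_addOrderOf_nsmul x k', h1]

theorem eMul {M : Type*} [AddCommMonoid M] (f g : AddMonoid.End M) (x : M) :
    (f * g) x = f (g x) := rfl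

theorem eSub {M : Type*} [AddCommGroup M] (f g : AddMonoid.End M) (x : M) :
    (f - g) x = f x - g x := rfl

theorem eOne {M : Type*} [AddCommMonoid M] (x : M) : (1 : AddMonoid.End M) x = x := rfl

/-! ### Restriction of endomorphisms to a subgroup -/

section Compat

variable {J : Type*} [AddCommGroup J] {G : AddSubgroup J}

/-- `e` is the restriction of `e'` to `G` -/
def Compat (e : AddMonoid.End ↥G) (e' : AddMonoid.End J) : Prop :=
  ∀ x : ↥G, ((e x : ↥G) : J) = e' (x : J)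

theorem Compat.one : Compat (1 : AddMonoid.End ↥G) (1 : AddMonoid.End J) := fun _ => rfl

theorem Compat.natCast (k : ℕ) : Compat (k : AddMonoid.End ↥G) (k : AddMonoid.End J) := fun x => by
  rw [AddMonoid.End.natCast_apply, AddMonoid.End.natCast_apply, AddSubgroup.coe_nsmul]

theorem Compat.sub {e f : AddMonoid.End ↥G} {e' f' : AddMonoid.End J} (h : Compat e e')
    (h' : Compat f f') : Compat (e - f) (e' - f') := fun x => by
  rw [eSub, eSub, AddSubgroup.coe_sub, h x, h' x]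

theorem Compat.mul {e f : AddMonoid.End ↥G} {e' f' : AddMonoid.End J} (h : Compat e e')
    (h' : Compat f f') : Compat (e * f) (e' * f') := fun x => by
  rw [eMul, eMul, h, h']

theorem Compat.pow {e : AddMonoid.End ↥G} {e' : AddMonoid.End J} (h : Compat e e') (m : ℕ) :
    Compat (e ^ m) (e' ^ m) := by
  induction m with
  | zero => simpa using Compat.one
  | succ m ih => rw [pow_succ, pow_succ]; exact ih.mul h

end Compat

section Main

variable {J : Type*} [AddCommGroup J] [DistribMulAction GQ J]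

/-- the action of `σ` as an endomorphism of `J` -/
noncomputable abbrev act (σ : GQ) : AddMonoid.End J := DistribMulAction.toAddMonoidEnd GQ J σ

theorem act_apply (σ : GQ) (x : J) : (act σ : AddMonoid.End J) x = σ • x := rfl

/-- the restricted representation -/
noncomputable def res (G : AddSubgroup J) (hstab : ∀ (σ : GQ), ∀ g ∈ G, σ • g ∈ G) :
    GQ →* AddMonoid.End ↥G where
  toFun σ :=
    { toFun := fun x => ⟨σ • (x : J), hstab σ x x.2⟩
      map_zero' := Subtype.ext (smul_zero σ)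
      map_add' := fun x y => Subtype.ext (smul_add σ (x : J) (y : J)) }
  map_one' := by
    ext x
    exact one_smul GQ (x : J)
  map_mul' σ τ := by
    ext x
    exact mul_smul σ τ (x : J)

theorem res_compat (G : AddSubgroup J) (hstab : ∀ (σ : GQ), ∀ g ∈ G, σ • g ∈ G) (σ : GQ) :
    Compat (res G hstab σ) (act σ) := fun _ => rfl

theorem nsmul_smul_eq_zero (σ : GQ) (n : ℕ) (x : J) (h : n • x = 0) : n • σ • x = 0 := by
  rw [← smul_comm σ n x, h, smul_zero]

theorem commute_sub_natCast (T : AddMonoid.End J) (c : ℕ) (σ : GQ)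
    (hT : ∀ x : J, T (σ • x) = σ • T x) : Commute (T - (c : AddMonoid.End J)) (act σ) := by
  ext x
  simp only [eMul, eSub, AddMonoid.End.natCast_apply, act_apply, smul_sub, hT x]
  congr 1
  exact (smul_comm σ c x).symm

theorem pow_smul_eq_zero (T : AddMonoid.End J) (c : ℕ) (σ : GQ)
    (hT : ∀ x : J, T (σ • x) = σ • T x) (k : ℕ) (x : J)
    (h : ((T - (c : AddMonoid.End J)) ^ k) x = 0) :
    ((T - (c : AddMonoid.End J)) ^ k) (σ • x) = 0 := by
  have h1 := congrArg (fun e : AddMonoid.End J => e x)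
    ((commute_sub_natCast T c σ hT).pow_left k).eq
  simp only [eMul, act_apply] at h1
  rw [h1, h, smul_zero]

/-- Eichler-Shimura: `((φ - 1)(φ - ℓ))^k = ((T - (1 + ℓ)) φ)^k` on `J[n]` -/
theorem es_pow (n ℓ : ℕ) (T : AddMonoid.End J) (φ : GQ)
    (hES : ∀ x : J, n • x = 0 → φ • φ • x - T (φ • x) + ℓ • x = 0) (k : ℕ) (x : J)
    (hx : n • x = 0) :
    (((act φ - 1) * (act φ - (ℓ : AddMonoid.End J))) ^ k : AddMonoid.End J) x =
      (((T - ((1 + ℓ : ℕ) : AddMonoid.End J)) * act φ) ^ k : AddMonoid.End J) x := by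
  induction k generalizing x with
  | zero => simp
  | succ k ih =>
    have h1 : ((act φ - 1) * (act φ - (ℓ : AddMonoid.End J)) : AddMonoid.End J) x =
        ((T - ((1 + ℓ : ℕ) : AddMonoid.End J)) * act φ : AddMonoid.End J) x := by
      have h2 := hES x hx
      simp only [eMul, eSub, AddMonoid.End.natCast_apply, act_apply, eOne, smul_sub, add_nsmul,
        one_nsmul]
      have h3 : φ • ℓ • x = ℓ • φ • x := smul_comm φ ℓ x
      rw [h3]
      have h4 : T (φ • x) = φ • φ • x + ℓ • x := by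
        rw [sub_add_eq_add_sub, sub_eq_zero] at h2
        exact h2.symm
      rw [h4]
      abel
    rw [pow_succ, pow_succ, eMul (_ ^ k), eMul (_ ^ k), h1]
    apply ih
    rw [← map_nsmul, hx, map_zero]

/-- **ADM, ring form.** -/
theorem nil_of_frob (n : ℕ) (S : Finset ℕ) (hS : ∀ ℓ : ℕ, ℓ.Prime → ℓ ∣ n → ℓ ∈ S)
    (T : ℕ → AddMonoid.End J)
    (hTG : ∀ ℓ : ℕ, ℓ.Prime → ℓ ∉ S → ∀ (σ : GQ) (x : J), T ℓ (σ • x) = σ • T ℓ x)
    (hES : ∀ ℓ : ℕ, ℓ.Prime → ℓ ∉ S → ∀ A : ValuationSubring Qb, A.LiesOverPrime ℓ →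
      ∀ φ : GQ, A.IsFrobeniusAt φ ℓ → ∀ x : J, n • x = 0 →
        φ • φ • x - T ℓ (φ • x) + ℓ • x = 0)
    (G : AddSubgroup J) [Finite G] (htors : ∀ g ∈ G, n • g = 0)
    (hstab : ∀ (σ : GQ), ∀ g ∈ G, σ • g ∈ G)
    (hopen : ∀ g ∈ G, ∃ L : IntermediateField ℚ Qb, FiniteDimensional ℚ L ∧
      ∀ σ ∈ L.fixingSubgroup, σ • g = g)
    (hnil : ∀ ℓ : ℕ, ℓ.Prime → ℓ ∉ S → ∀ g ∈ G,
      ∃ k : ℕ, ((T ℓ - ((1 + ℓ : ℕ) : AddMonoid.End J)) ^ k) g = 0)
    (ζ : Qb) (hζ : IsPrimitiveRoot ζ n) (σ : GQ) (k : ℕ) (hk : σ ζ = ζ ^ k) :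
    ∃ m : ℕ, ∀ g ∈ G,
      ((act σ - 1) ^ m * (act σ - (k : AddMonoid.End J)) ^ m : AddMonoid.End J) g = 0 := by
  classical
  -- the field of definition
  choose Lf hLfd hLfix using fun g : ↥G => hopen g g.2
  have : ∀ g, FiniteDimensional ℚ (Lf g) := hLfd
  let L : IntermediateField ℚ Qb := (⨆ g, Lf g) ⊔ IntermediateField.adjoin ℚ {ζ}
  have : FiniteDimensional ℚ (IntermediateField.adjoin ℚ {ζ}) :=
    IntermediateField.adjoin.finiteDimensional
      (Fermat.Agent.Lib.Frobenius.isIntegral_rat.isIntegral ζ)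
  have : FiniteDimensional ℚ (⨆ g, Lf g : IntermediateField ℚ Qb) :=
    IntermediateField.finiteDimensional_iSup_of_finite
  have : FiniteDimensional ℚ L := IntermediateField.finiteDimensional_sup _ _
  obtain ⟨ℓ, A, φ, -, b, hℓ, hℓS, hA, hφ, -, hb⟩ :=
    Fermat.Agent.Lib.FrobDensity.exists_frobenius_generator L σ S
  have hℓn : ¬ ℓ ∣ n := fun h => hℓS (hS ℓ hℓ h)
  have hn0 : n ≠ 0 := fun h => hℓn (h ▸ dvd_zero ℓ)
  have hζ0 : ζ ≠ 0 := hζ.ne_zero hn0
  -- `σ = φ ^ b` on `G`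
  have hσG : res G hstab σ = res G hstab φ ^ b := by
    rw [← map_pow]
    ext g
    change σ • (g : J) = (φ ^ b) • (g : J)
    have h1 : (φ ^ b)⁻¹ * σ ∈ (Lf g).fixingSubgroup := by
      rw [IntermediateField.mem_fixingSubgroup_iff]
      intro x hx
      have hxL : x ∈ L := (le_sup_left : _ ≤ L) ((le_iSup Lf g) hx)
      rw [AlgEquiv.mul_apply, ← hb x hxL]
      exact (φ ^ b).symm_apply_apply x
    have h2 := hLfix g _ h1
    rw [mul_smul, inv_smul_eq_iff] at h2
    exact h2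
  -- `k = ℓ ^ b` on `G`
  have hkG : (k : AddMonoid.End ↥G) = ((ℓ ^ b : ℕ) : AddMonoid.End ↥G) := by
    have h1 : ζ ^ k = ζ ^ (ℓ ^ b) := by
      rw [← hk, ← hb ζ ((le_sup_right : _ ≤ L) (IntermediateField.mem_adjoin_simple_self ℚ ζ))]
      exact frob_pow_root φ ζ (frob_root hℓ A hA φ hφ hℓn ζ hζ.pow_eq_one) b
    have h2 : k ≡ ℓ ^ b [MOD n] := by
      have h3 : (Units.mk0 ζ hζ0) ^ k = (Units.mk0 ζ hζ0) ^ (ℓ ^ b) :=
        Units.ext (by simpa using h1)
      have h4 := pow_eq_pow_iff_modEq.mp h3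
      rwa [← orderOf_units, Units.val_mk0, ← hζ.eq_orderOf] at h4
    ext g
    rw [AddMonoid.End.natCast_apply, AddMonoid.End.natCast_apply, AddSubgroup.coe_nsmul,
      AddSubgroup.coe_nsmul]
    exact nsmul_eq_of_modEq h2 (htors g g.2)
  -- nilpotency for `φ`
  set Tn : AddMonoid.End J := T ℓ - ((1 + ℓ : ℕ) : AddMonoid.End J) with hTn
  have hcomm : Commute Tn (act φ) := commute_sub_natCast (T ℓ) (1 + ℓ) φ (hTG ℓ hℓ hℓS φ)
  have hpt : ∀ g : ↥G, ∃ j : ℕ,
      (((res G hstab φ - 1) * (res G hstab φ - (ℓ : AddMonoid.End ↥G))) ^ j) g = 0 := by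
    intro g
    obtain ⟨j, hj⟩ := hnil ℓ hℓ hℓS g g.2
    refine ⟨j, Subtype.ext ?_⟩
    rw [((((res_compat G hstab φ).sub Compat.one).mul
      ((res_compat G hstab φ).sub (Compat.natCast ℓ))).pow j) g,
      es_pow n ℓ (T ℓ) φ (hES ℓ hℓ hℓS A hA φ hφ) j g (htors g g.2), hcomm.mul_pow,
      (hcomm.pow_pow j j).eq, eMul, hj, map_zero]
    rfl
  choose jf hjf using hpt
  obtain ⟨m, hm⟩ : ∃ m, ∀ g, jf g ≤ m := by
    obtain ⟨m, hm⟩ := (Set.finite_range jf).bddAbove
    exact ⟨m, fun g => hm ⟨g, rfl⟩⟩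
  have hnilφ : ((res G hstab φ - 1) * (res G hstab φ - (ℓ : AddMonoid.End ↥G))) ^ m = 0 := by
    ext g
    obtain ⟨d, hd⟩ := Nat.exists_eq_add_of_le (hm g)
    rw [hd, add_comm, pow_add, eMul, hjf g, map_zero]
    rfl
  have hfin := pow_nil (res G hstab φ) ℓ b m hnilφ
  rw [← hσG, ← hkG] at hfin
  refine ⟨m, fun g hg => ?_⟩
  have h3 := ((((res_compat G hstab σ).sub Compat.one).pow m).mul
    (((res_compat G hstab σ).sub (Compat.natCast k)).pow m)) ⟨g, hg⟩
  rw [hfin] at h3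
  exact h3.symm

/-- from the ring form to the iterate form (shape of `Sel.NilCond`) -/
theorem iter_of_ring (σ : GQ) (k m : ℕ) (g : J)
    (h : ((act σ - 1) ^ m * (act σ - (k : AddMonoid.End J)) ^ m : AddMonoid.End J) g = 0) :
    (fun x : J => σ • x - x)^[m] ((fun x : J => σ • x - k • x)^[m] g) = 0 := by
  rw [eMul, AddMonoid.End.coe_pow, AddMonoid.End.coe_pow] at h
  exact h

/-- from the ring form to the form `(σ² - (k + 1) σ + k)^[m] = 0` (shape of `HG.Hyp.eis`) -/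
theorem eisOp_of_ring (σ : GQ) (k m : ℕ) (g : J)
    (h : ((act σ - 1) ^ m * (act σ - (k : AddMonoid.End J)) ^ m : AddMonoid.End J) g = 0) :
    (fun x : J => σ • σ • x - (k + 1) • σ • x + k • x)^[m] g = 0 := by
  have hc : Commute ((act σ : AddMonoid.End J) - 1) (act σ - (k : AddMonoid.End J)) :=
    ((Commute.refl (act σ : AddMonoid.End J)).sub_right (Nat.commute_cast _ k)).sub_left
      (Commute.one_left _)
  rw [← hc.mul_pow, AddMonoid.End.coe_pow] at h
  have h1 : (fun x : J => σ • σ • x - (k + 1) • σ • x + k • x) =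
      ⇑((act σ - 1) * (act σ - (k : AddMonoid.End J)) : AddMonoid.End J) := by
    funext x
    simp only [eMul, eSub, AddMonoid.End.natCast_apply, act_apply, eOne, smul_sub, add_nsmul,
      one_nsmul]
    rw [smul_comm σ k x]
    abel
  rw [h1]
  exact h

end Main

end Fermat.Agent.S15.Adm
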