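/-
S15, block ADM (helper46).  The instance: the Eisenstein part `Eis N r` of `J₀(N)[r]`.

* `openStab`      : the contract `OpenStab N` (PROVED, from the landed `S17.W.exists_finite_level_divisor`);
* `finite_eis`    : `Eis N r` is finite (from the landed `S19.Glue.finite_tors`, i.e. S27);
* `eis_stable`    : `Eis N r` is Galois stable (from `HeckeGalois N`);
* `nilCond_eis`   : `Sel.NilCond ζ (Eis N r)` from `HeckeGalois N` and `EichlerShimuraTors N r`;
* `chain_eis`     : `Sel.Chain r ⊥ (Eis N r)`: the Jordan-Hoelder pieces of `Eis N r` are `ℤ/r` and `μ_r`.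
-/
import Fermat.Agent.S15.Contracts
import Fermat.Agent.S15.Adm.Frob
import Fermat.Agent.S15.Sel.Adm.Chain
import Fermat.Agent.S19.Glue.Defs

set_option autoImplicit false

namespace Fermat.Agent.S15.Adm

open ModularCurve AlgebraicCurve Fermat.Agent.S24

variable (N : ℕ) [NeZero N]

/-- The contract `OpenStab N`. -/
theorem openStab : OpenStab N := by
  intro x
  obtain ⟨D, hD⟩ := Pic0.mk_surjective x
  obtain ⟨L, hL, h⟩ :=
    S17.W.exists_finite_level_divisor N (D : Divisor Kbar (modularFunctionFieldBar N))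
  refine ⟨L, hL, fun σ hσ => ?_⟩
  rw [← hD]
  show arithmeticGalois (modularFunctionFieldFull N) σ • (Pic0.mk D) = Pic0.mk D
  rw [SemilinearAut.pic0_smul_mk]
  refine congrArg Pic0.mk (Subtype.ext ?_)
  rw [SemilinearAut.coe_degZeroSMulHom]
  exact h σ ((IntermediateField.mem_fixingSubgroup_iff L σ).mp hσ)

theorem eis_tors (r : ℕ) : ∀ g ∈ Eis N r, r • g = 0 := fun _ hg => hg.1

theorem finite_eis (r : ℕ) (hr : 0 < r) : Finite ↥(Eis N r) := by
  have := S19.Glue.finite_tors N r hr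
  have hle : Eis N r ≤ Pic0.torsion Kbar (modularFunctionFieldBar N) r := by
    intro x hx
    rw [Pic0.mem_torsion, natCast_zsmul]
    exact hx.1
  exact Finite.of_injective (AddSubgroup.inclusion hle) (AddSubgroup.inclusion_injective hle)

theorem eis_stable (r : ℕ) (hHG : HeckeGalois N) (σ : GQ) : ∀ g ∈ Eis N r, σ • g ∈ Eis N r := by
  intro g hg
  refine ⟨nsmul_smul_eq_zero σ r g hg.1, fun p hp hpN => ?_⟩
  obtain ⟨k, hk⟩ := hg.2 p hp hpN
  exact ⟨k, pow_smul_eq_zero (Tp N p) (1 + p) σ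
    (hHG p hp (fun h => hpN (h.mul_right r)) σ) k g hk⟩

theorem nilCond_eis (r : ℕ) (hr : r.Prime) (hHG : HeckeGalois N) (hES : EichlerShimuraTors N r)
    (ζ : Kbar) (hζ : IsPrimitiveRoot ζ r) : Sel.NilCond ζ (Eis N r) := by
  intro σ k hk
  have := finite_eis N r hr.pos
  have hNr : N * r ≠ 0 := mul_ne_zero (NeZero.ne N) hr.ne_zero
  have hS : ∀ ℓ : ℕ, ℓ.Prime → ℓ ∉ (N * r).primeFactors → ¬ ℓ ∣ N * r := fun ℓ hℓ h h' =>
    h (Nat.mem_primeFactors.mpr ⟨hℓ, h', hNr⟩)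
  obtain ⟨m, hm⟩ := nil_of_frob r (N * r).primeFactors
    (fun ℓ hℓ h => Nat.mem_primeFactors.mpr ⟨hℓ, h.mul_left N, hNr⟩) (Tp N)
    (fun ℓ hℓ h σ x => hHG ℓ hℓ (fun h' => hS ℓ hℓ h (h'.mul_right r)) σ x)
    (fun ℓ hℓ h A hA φ hφ x hx => hES ℓ hℓ (hS ℓ hℓ h) A hA φ hφ x hx)
    (Eis N r) (eis_tors N r) (eis_stable N r hHG) (fun g _ => openStab N g)
    (fun ℓ hℓ h g hg => hg.2 ℓ hℓ (hS ℓ hℓ h)) ζ hζ σ k hk
  exact ⟨m, fun g hg => iter_of_ring σ k m g (hm g hg)⟩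

/-- **ADM**: the Jordan-Hoelder pieces of the Eisenstein part of `J₀(N)[r]` are `ℤ/r` and `μ_r`. -/
theorem chain_eis (r : ℕ) (hr : r.Prime) (hHG : HeckeGalois N) (hES : EichlerShimuraTors N r) :
    Sel.Chain r ⊥ (Eis N r) := by
  have := finite_eis N r hr.pos
  have : NeZero r := ⟨hr.ne_zero⟩
  have : NeZero (r : Kbar) := ⟨Nat.cast_ne_zero.mpr hr.ne_zero⟩
  obtain ⟨ζ, hζ⟩ := HasEnoughRootsOfUnity.exists_primitiveRoot Kbar r
  exact Sel.chain_of_nilCond r hr ζ hζ (Eis N r) (eis_tors N r) (eis_stable N r hHG)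
    (nilCond_eis N r hr hHG hES ζ hζ)

end Fermat.Agent.S15.Adm
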