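/-
S15, block ADM (helper46).  Abstract part 1 (Mathlib only): the LINE LEMMA.

`G` a nonzero finite `𝔽_r`-vector space with a linear action `ρ` of a group `Γ`, `χ : Γ →* (ZMod r)ˣ`
a character such that `(ρ s - 1)(ρ s - χ s)` is nilpotent for every `s`.  Then there is `z ≠ 0`
with `ρ s z = z` for all `s`, or `ρ s z = χ s • z` for all `s`.
-/
import Mathlib

set_option autoImplicit false

namespace Fermat.Agent.S15.Adm

variable {r : ℕ} [Fact r.Prime] {Γ : Type*} [Group Γ]
  {G : Type*} [AddCommGroup G] [Module (ZMod r) G]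

/-- The hypothesis (NIL). -/
def Nil (ρ : Γ →* Module.End (ZMod r) G) (χ : Γ →* (ZMod r)ˣ) : Prop :=
  ∀ s : Γ, ∃ k : ℕ,
    ((ρ s - 1) * (ρ s - ((χ s : (ZMod r)ˣ) : ZMod r) • (1 : Module.End (ZMod r) G))) ^ k = 0

/-- an element with `χ s = 1` acts with `r`-power order -/
theorem exists_pow_eq_one (ρ : Γ →* Module.End (ZMod r) G) (χ : Γ →* (ZMod r)ˣ) (h : Nil ρ χ)
    {s : Γ} (hs : χ s = 1) : ∃ k : ℕ, ρ s ^ r ^ k = 1 := by
  obtain ⟨k, hk⟩ := h s
  rw [hs] at hk
  simp only [Units.val_one, one_smul] at hk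
  rw [← pow_two, ← pow_mul] at hk
  rcases subsingleton_or_nontrivial G with hG | hG
  · exact ⟨0, Subsingleton.elim _ _⟩
  have : CharP (Module.End (ZMod r) G) r :=
    charP_of_injective_algebraMap (algebraMap (ZMod r) (Module.End (ZMod r) G)).injective r
  refine ⟨2 * k, ?_⟩
  have h1 : (ρ s - 1) ^ r ^ (2 * k) = 0 := by
    have hle : 2 * k ≤ r ^ (2 * k) := (Nat.lt_pow_self (Fact.out : r.Prime).one_lt).le
    exact pow_eq_zero_of_le hle hk
  rw [sub_pow_char_pow_of_commute r (2 * k) (Commute.one_right _), one_pow, sub_eq_zero] at h1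
  exact h1

/-- the kernel of `χ` has a nonzero fixed vector -/
theorem exists_fixed_ker [Finite G] [Nontrivial G] (ρ : Γ →* Module.End (ZMod r) G)
    (χ : Γ →* (ZMod r)ˣ) (h : Nil ρ χ) :
    ∃ y : G, y ≠ 0 ∧ ∀ s : Γ, χ s = 1 → ρ s y = y := by
  classical
  let U : Γ →* (Module.End (ZMod r) G)ˣ := ρ.toHomUnits
  let P : Subgroup (Module.End (ZMod r) G)ˣ := χ.ker.map U
  have hP : IsPGroup r P := by
    rintro ⟨g, s, hs, rfl⟩
    obtain ⟨k, hk⟩ := exists_pow_eq_one ρ χ h (MonoidHom.mem_ker.mp hs)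
    refine ⟨k, ?_⟩
    apply Subtype.ext
    apply Units.ext
    simpa [U] using hk
  have hcard : r ∣ Nat.card G := by
    obtain ⟨x, hx⟩ := exists_ne (0 : G)
    have hrx : r • x = 0 := by
      rw [← Nat.cast_smul_eq_nsmul (ZMod r), ZMod.natCast_self, zero_smul]
    rw [← addOrderOf_eq_prime hrx hx]
    exact addOrderOf_dvd_natCard x
  have h0 : (0 : G) ∈ MulAction.fixedPoints P G := by
    rintro ⟨g, hg⟩
    change (g : Module.End (ZMod r) G) 0 = 0
    simp
  obtain ⟨y, hy, hy0⟩ := hP.exists_fixed_point_of_prime_dvd_card_of_fixed_point G hcard h0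
  refine ⟨y, hy0.symm, fun s hs => ?_⟩
  have := hy ⟨U s, s, MonoidHom.mem_ker.mpr hs, rfl⟩
  exact this

/-- an eigenvector of a single operator inside a stable submodule -/
theorem exists_eigen (A : Module.End (ZMod r) G) (g : ZMod r) (k : ℕ)
    (hk : ((A - 1) * (A - g • (1 : Module.End (ZMod r) G))) ^ k = 0)
    (V : Submodule (ZMod r) G) (hV : ∀ x ∈ V, A x ∈ V) {y : G} (hy : y ∈ V) (hy0 : y ≠ 0) :
    ∃ z ∈ V, z ≠ 0 ∧ (A z = z ∨ A z = g • z) := by
  classical
  set D : Module.End (ZMod r) G := (A - 1) * (A - g • (1 : Module.End (ZMod r) G)) with hD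
  have hC : ∀ x ∈ V, (A - g • (1 : Module.End (ZMod r) G)) x ∈ V := fun x hx => by
    simpa using V.sub_mem (hV x hx) (V.smul_mem g hx)
  have hB : ∀ x ∈ V, (A - 1) x ∈ V := fun x hx => by
    simpa using V.sub_mem (hV x hx) hx
  have hDV : ∀ x ∈ V, D x ∈ V := fun x hx => hB _ (hC x hx)
  have hDn : ∀ n : ℕ, (D ^ n) y ∈ V := by
    intro n
    induction n with
    | zero => simpa using hy
    | succ n ih => rw [pow_succ', Module.End.mul_apply]; exact hDV _ ih
  have hex : ∃ n : ℕ, (D ^ n) y = 0 := ⟨k, by rw [hk]; rfl⟩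
  have hn0 : Nat.find hex ≠ 0 := by
    intro h0
    have := Nat.find_spec hex
    rw [h0] at this
    exact hy0 (by simpa using this)
  obtain ⟨n, hn⟩ := Nat.exists_eq_succ_of_ne_zero hn0
  have hw : (D ^ n) y ≠ 0 := Nat.find_min hex (by omega)
  have hDw : D ((D ^ n) y) = 0 := by
    have := Nat.find_spec hex
    rw [hn, Nat.succ_eq_add_one, pow_succ', Module.End.mul_apply] at this
    exact this
  by_cases hc : (A - g • (1 : Module.End (ZMod r) G)) ((D ^ n) y) = 0
  · refine ⟨(D ^ n) y, hDn n, hw, Or.inr ?_⟩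
    have : A ((D ^ n) y) - g • (D ^ n) y = 0 := by simpa using hc
    exact sub_eq_zero.mp this
  · refine ⟨_, hC _ (hDn n), hc, Or.inl ?_⟩
    have : (A - 1) ((A - g • (1 : Module.End (ZMod r) G)) ((D ^ n) y)) = 0 := hDw
    have h2 : A ((A - g • (1 : Module.End (ZMod r) G)) ((D ^ n) y)) -
        (A - g • (1 : Module.End (ZMod r) G)) ((D ^ n) y) = 0 := by simpa using this
    exact sub_eq_zero.mp h2

/-- **The line lemma.** -/
theorem exists_line [Finite G] [Nontrivial G] (ρ : Γ →* Module.End (ZMod r) G)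
    (χ : Γ →* (ZMod r)ˣ) (h : Nil ρ χ) :
    ∃ z : G, z ≠ 0 ∧ ((∀ s : Γ, ρ s z = z) ∨
      (∀ s : Γ, ρ s z = ((χ s : (ZMod r)ˣ) : ZMod r) • z)) := by
  classical
  obtain ⟨y, hy0, hy⟩ := exists_fixed_ker ρ χ h
  -- the submodule of vectors fixed by the kernel
  let V : Submodule (ZMod r) G :=
    { carrier := {x | ∀ s : Γ, χ s = 1 → ρ s x = x}
      add_mem' := fun {a b} ha hb s hs => by rw [map_add, ha s hs, hb s hs]
      zero_mem' := fun s _ => map_zero _
      smul_mem' := fun c x hx s hs => by rw [map_smul, hx s hs] }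
  have hVst : ∀ t : Γ, ∀ x ∈ V, ρ t x ∈ V := by
    intro t x hx s hs
    have h1 : χ (t⁻¹ * s * t) = 1 := by
      rw [map_mul, map_mul, hs, mul_one, ← map_mul, inv_mul_cancel, map_one]
    have h2 := hx _ h1
    have h3 : ρ s (ρ t x) = ρ t (ρ (t⁻¹ * s * t) x) := by
      rw [← Module.End.mul_apply, ← Module.End.mul_apply, ← map_mul, ← map_mul]
      congr 2
      group
    rw [h3, h2]
  -- a generator of the image of χ
  obtain ⟨⟨c, s₀, rfl⟩, hc⟩ := IsCyclic.exists_monoid_generator (α := χ.range)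
  have hgen : ∀ s : Γ, ∃ j : ℕ, χ s₀ ^ j = χ s := by
    intro s
    obtain ⟨j, hj⟩ := hc ⟨χ s, s, rfl⟩
    exact ⟨j, by simpa using congrArg Subtype.val hj⟩
  obtain ⟨k, hk⟩ := h s₀
  obtain ⟨z, hzV, hz0, hz⟩ := exists_eigen (ρ s₀) _ k hk V (hVst s₀) (y := y) hy hy0
  have key : ∀ (lam : ZMod r), ρ s₀ z = lam • z → ∀ (s : Γ) (j : ℕ), χ s₀ ^ j = χ s →
      ρ s z = lam ^ j • z := by
    intro lam hlam s j hj
    have hpow : ∀ j : ℕ, ρ (s₀ ^ j) z = lam ^ j • z := by
      intro j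
      induction j with
      | zero => simp
      | succ j ih =>
        rw [pow_succ, map_mul, Module.End.mul_apply, hlam, map_smul, ih, smul_smul, pow_succ,
          mul_comm]
    have h1 : χ (s * (s₀ ^ j)⁻¹) = 1 := by
      rw [map_mul, map_inv, map_pow, hj, mul_inv_cancel]
    have h2 : ρ s z = ρ (s * (s₀ ^ j)⁻¹) (ρ (s₀ ^ j) z) := by
      rw [← Module.End.mul_apply, ← map_mul]
      congr 2
      group
    rw [h2, hpow j, map_smul, hzV _ h1]
  refine ⟨z, hz0, ?_⟩
  rcases hz with hz | hz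
  · left
    intro s
    obtain ⟨j, hj⟩ := hgen s
    have := key 1 (by rw [one_smul]; exact hz) s j hj
    simpa using this
  · right
    intro s
    obtain ⟨j, hj⟩ := hgen s
    have := key _ hz s j hj
    rw [this, ← hj]
    simp

end Fermat.Agent.S15.Adm
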