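/-
S15, block ADM (helper46): the contract `AdmEis N r`, literally.

* `admEis_of` : from the contracts `HeckeGalois N`, `EichlerShimuraTors N r`;
* `admEis`    : unconditional (with helper257's `S15/HJ`);
* `chainEis`  : `Sel.Chain r ⊥ (Eis N r)`, unconditional.
-/
import Fermat.Agent.S15.Abstract
import Fermat.Agent.S15.Adm.Inst
import Fermat.Agent.S15.HJ.Equiv
import Fermat.Agent.S15.HJ.Red

set_option autoImplicit false

namespace Fermat.Agent.S15

variable (N : ℕ) [NeZero N]

theorem admEis_of (r : ℕ) (hr : r.Prime) (hHG : HeckeGalois N) (hES : EichlerShimuraTors N r) :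
    AdmEis N r :=
  fun ζ hζ => Adm.nilCond_eis N r hr hHG hES ζ hζ

/-- **ADM.** -/
theorem admEis (r : ℕ) (hr : r.Prime) : AdmEis N r :=
  admEis_of N r hr (heckeGalois N) (eichlerShimuraTors N r)

theorem chainEis (r : ℕ) (hr : r.Prime) : Sel.Chain r ⊥ (Eis N r) :=
  Adm.chain_eis N r hr (heckeGalois N) (eichlerShimuraTors N r)

end Fermat.Agent.S15
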